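import Mathlib
import Fermat.Prelude.Def_CuspForm_IntegralLattice
import Fermat.Prelude.Def_CuspForm_HeckeAlgebra
import Fermat.Prelude.Def_CuspForm_IntegralStructure
import Fermat.Prelude.Thm_CuspForm_intLattice_fg
import Fermat.Prelude.Thm_CuspForm_mem_intLattice_of_mem_heckeAlgebra
import Fermat.Prelude.Thm_ModularFormClass_qCoeff_heckeT
import Fermat.Prelude.Thm_ModularFormClass_qCoeff_heckeU
import Fermat.Prelude.Thm_UpperHalfPlane_eq_of_forall_qCoeff_eq
import Fermat.Prelude.Thm_CongruenceSubgroup_one_mem_strictPeriods_Gamma0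

set_option autoImplicit false

open CongruenceSubgroup ModularFormClass UpperHalfPlane

namespace Fermat.Agent.S49

variable {N : ℕ} {k : ℤ}

theorem qCoeff_add (f g : CuspForm (Gamma0 N) k) (n : ℕ) :
    qCoeff (⇑(f + g)) n = qCoeff (⇑f) n + qCoeff (⇑g) n := by
  unfold qCoeff
  rw [FunLike.coe_add,
    ModularForm.qExpansion_add one_pos (one_mem_strictPeriods_Gamma0 N) f g, map_add]

theorem qCoeff_smul (c : ℂ) (f : CuspForm (Gamma0 N) k) (n : ℕ) :
    qCoeff (⇑(c • f)) n = c * qCoeff (⇑f) n := by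
  unfold qCoeff
  rw [FunLike.coe_smul,
    ModularForm.qExpansion_smul one_pos (one_mem_strictPeriods_Gamma0 N) c f]
  simp

/-- The `n`-th `q`-coefficient as a linear functional. -/
noncomputable def qLin (N : ℕ) (k : ℤ) (n : ℕ) : CuspForm (Gamma0 N) k →ₗ[ℂ] ℂ where
  toFun f := qCoeff (⇑f) n
  map_add' f g := qCoeff_add f g n
  map_smul' c f := by simpa using qCoeff_smul c f n

theorem qLin_apply (n : ℕ) (f : CuspForm (Gamma0 N) k) : qLin N k n f = qCoeff (⇑f) n := rfl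

theorem qCoeff_zero_eq (f : CuspForm (Gamma0 N) k) : qCoeff (⇑f) 0 = 0 :=
  CuspFormClass.qExpansion_coeff_zero f one_pos (one_mem_strictPeriods_Gamma0 N)

theorem ext_qCoeff {f g : CuspForm (Gamma0 N) k}
    (h : ∀ n : ℕ, qCoeff (⇑f) n = qCoeff (⇑g) n) : f = g := by
  have hΓ := one_mem_strictPeriods_Gamma0 N
  have : Fact (IsCusp OnePoint.infty
      (Subgroup.map (Matrix.SpecialLinearGroup.mapGL ℝ) (Gamma0 N))) :=
    ⟨Subgroup.isCusp_of_mem_strictPeriods one_pos hΓ⟩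
  apply DFunLike.coe_injective
  exact UpperHalfPlane.eq_of_forall_qCoeff_eq
    (SlashInvariantFormClass.periodic_comp_ofComplex f hΓ) (ModularFormClass.holo f)
    (ModularFormClass.bdd_at_infty f)
    (SlashInvariantFormClass.periodic_comp_ofComplex g hΓ) (ModularFormClass.holo g)
    (ModularFormClass.bdd_at_infty g) h

theorem qCoeff_heckeT {ℓ : ℕ} (hℓ : ℓ.Prime) (hℓN : ¬ ℓ ∣ N) (f : CuspForm (Gamma0 N) k)
    (n : ℕ) :
    qCoeff (⇑(CuspForm.heckeTLin k hℓ hℓN f)) n =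
      qCoeff (⇑f) (n * ℓ) + if ℓ ∣ n then (ℓ : ℂ) ^ (k - 1) * qCoeff (⇑f) (n / ℓ) else 0 := by
  rw [CuspForm.coe_heckeTLin_apply,
    ModularFormClass.qCoeff_heckeT f (one_mem_strictPeriods_Gamma0 N) hℓ.ne_zero n]
  rfl

theorem qCoeff_heckeU [NeZero N] {q : ℕ} (hq : q.Prime) (hqN : q ∣ N)
    (f : CuspForm (Gamma0 N) k) (n : ℕ) :
    qCoeff (⇑(CuspForm.heckeULin k hqN f)) n = qCoeff (⇑f) (n * q) := by
  rw [CuspForm.coe_heckeULin_apply,
    ModularFormClass.qCoeff_heckeU f (one_mem_strictPeriods_Gamma0 N) hq.ne_zero n]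
  rfl


/-! ### The integral lattice -/

theorem mem_intLattice_iff (f : CuspForm (Gamma0 N) k) :
    f ∈ CuspForm.intLattice N k ↔ ∀ n : ℕ, ∃ m : ℤ, qCoeff (⇑f) n = (m : ℂ) := by
  constructor
  · intro hf n
    unfold CuspForm.intLattice at hf
    induction hf using Submodule.span_induction with
    | mem x hx => exact hx n
    | zero => exact ⟨0, by rw [← qLin_apply, map_zero]; simp⟩
    | add x y _ _ hx hy =>
      obtain ⟨a, ha⟩ := hx
      obtain ⟨b, hb⟩ := hy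
      exact ⟨a + b, by rw [qCoeff_add, ha, hb]; push_cast; ring⟩
    | smul c x _ hx =>
      obtain ⟨a, ha⟩ := hx
      refine ⟨c * a, ?_⟩
      rw [← qLin_apply, map_zsmul, qLin_apply, ha]
      simp
  · intro hf
    exact Submodule.subset_span hf

theorem mem_qIntegralSet_iff (f : CuspForm (Gamma0 N) 2) :
    f ∈ CuspForm.qIntegralSet N ↔ ∀ n : ℕ, ∃ m : ℤ, qCoeff (⇑f) n = (m : ℂ) := by
  unfold CuspForm.qIntegralSet
  simp only [Set.mem_ofPred_eq, Subring.mem_bot]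
  constructor
  · intro hf n
    obtain ⟨m, hm⟩ := hf n
    exact ⟨m, hm.symm⟩
  · intro hf n
    obtain ⟨m, hm⟩ := hf n
    exact ⟨m, hm.symm⟩

theorem finite_of_hasIntegralBasis [NeZero N] (h : CuspForm.HasIntegralBasis N) :
    Module.Finite ℂ (CuspForm (Gamma0 N) 2) := by
  obtain ⟨s, hs⟩ := CuspForm.intLattice_fg N 2
  refine ⟨⟨s, ?_⟩⟩
  unfold CuspForm.HasIntegralBasis at h
  rw [eq_top_iff, ← h]
  apply Submodule.span_le.mpr
  intro f hf
  have hf' : f ∈ CuspForm.intLattice N 2 :=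
    (mem_intLattice_iff f).mpr ((mem_qIntegralSet_iff f).mp hf)
  rw [← hs] at hf'
  exact Submodule.span_le_restrictScalars ℤ ℂ _ hf'

theorem span_intLattice_eq_top (h : CuspForm.HasIntegralBasis N) :
    Submodule.span ℂ ((CuspForm.intLattice N 2 : Submodule ℤ (CuspForm (Gamma0 N) 2)) :
      Set (CuspForm (Gamma0 N) 2)) = ⊤ := by
  unfold CuspForm.HasIntegralBasis at h
  rw [eq_top_iff, ← h]
  apply Submodule.span_mono
  intro f hf
  exact (mem_intLattice_iff f).mpr ((mem_qIntegralSet_iff f).mp hf)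

/-- All `q`-coefficients are integers divisible by `3`. -/
def Div3 (f : CuspForm (Gamma0 N) k) : Prop :=
  ∀ n : ℕ, ∃ m : ℤ, qCoeff (⇑f) n = 3 * (m : ℂ)

theorem div3_zero : Div3 (0 : CuspForm (Gamma0 N) k) := fun n =>
  ⟨0, by rw [← qLin_apply, map_zero]; simp⟩

theorem Div3.add {f g : CuspForm (Gamma0 N) k} (hf : Div3 f) (hg : Div3 g) : Div3 (f + g) := by
  intro n
  obtain ⟨a, ha⟩ := hf n
  obtain ⟨b, hb⟩ := hg n
  exact ⟨a + b, by rw [qCoeff_add, ha, hb]; push_cast; ring⟩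

theorem Div3.zsmul {f : CuspForm (Gamma0 N) k} (hf : Div3 f) (c : ℤ) : Div3 (c • f) := by
  intro n
  obtain ⟨a, ha⟩ := hf n
  refine ⟨c * a, ?_⟩
  rw [← qLin_apply, map_zsmul, qLin_apply, ha]
  simp
  ring

theorem Div3.exists_eq_three_smul {f : CuspForm (Gamma0 N) k} (hf : Div3 f) :
    ∃ g ∈ CuspForm.intLattice N k, f = (3 : ℤ) • g := by
  refine ⟨(3⁻¹ : ℂ) • f, ?_, ?_⟩
  · rw [mem_intLattice_iff]
    intro n
    obtain ⟨a, ha⟩ := hf n
    exact ⟨a, by rw [qCoeff_smul, ha]; field_simp⟩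
  · apply ext_qCoeff
    intro n
    rw [← qLin_apply, ← qLin_apply, map_zsmul, map_smul]
    simp

theorem div3_three_smul {g : CuspForm (Gamma0 N) k} (hg : g ∈ CuspForm.intLattice N k) :
    Div3 ((3 : ℤ) • g) := by
  intro n
  obtain ⟨a, ha⟩ := (mem_intLattice_iff g).mp hg n
  refine ⟨a, ?_⟩
  rw [← qLin_apply, map_zsmul, qLin_apply, ha]
  simp

theorem Div3.hecke [NeZero N] (hk : 1 ≤ k) {S : Set ℕ}
    {t : Module.End ℂ (CuspForm (Gamma0 N) k)} (ht : t ∈ CuspForm.heckeAlgebra N k S)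
    {f : CuspForm (Gamma0 N) k} (hf : Div3 f) : Div3 (t f) := by
  obtain ⟨g, hg, rfl⟩ := hf.exists_eq_three_smul
  rw [map_zsmul]
  exact div3_three_smul (CuspForm.mem_intLattice_of_mem_heckeAlgebra hk ht hg)

end Fermat.Agent.S49
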