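import Mathlib

set_option autoImplicit false

/-!
Pure commutative-algebra core for S49 (Deligne–Serre lifting lemma):
simultaneous eigenvector + eigencharacter valued in the ring of algebraic integers + lying-over.
-/

namespace Fermat.Agent.S49.AlgCore

open Polynomial

section

variable {T : Type*} [CommRing T] {V : Type*} [AddCommGroup V] [Module ℂ V]
  [FiniteDimensional ℂ V]

/-- There is a nonzero `T`-stable subspace on which every `s ∉ m` acts injectively. -/
theorem exists_stable_injOn (φ : T →+* Module.End ℂ V) (m : Ideal T) [hm : m.IsPrime]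
    (hker : RingHom.ker φ ≤ m) :
    ∃ W : Submodule ℂ V, W ≠ ⊥ ∧ (∀ t : T, ∀ w ∈ W, φ t w ∈ W) ∧
      ∀ s : T, s ∉ m → ∀ w ∈ W, φ s w = 0 → w = 0 := by
  classical
  let P : Set (Submodule ℂ V) := {W | ∃ s : T, s ∉ m ∧ W = LinearMap.range (φ s)}
  have hP : P.Nonempty :=
    ⟨LinearMap.range (φ 1), 1, (Ideal.ne_top_iff_one m).mp hm.ne_top, rfl⟩
  obtain ⟨W, ⟨s₀, hs₀, rfl⟩, hmin⟩ :=
    WellFounded.has_min (wellFounded_lt (α := Submodule ℂ V)) P hP
  have hcomm : ∀ a b : T, ∀ u : V, φ a (φ b u) = φ b (φ a u) := by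
    intro a b u
    have h1 : φ (a * b) u = φ a (φ b u) := by rw [map_mul]; rfl
    have h2 : φ (b * a) u = φ b (φ a u) := by rw [map_mul]; rfl
    rw [← h1, ← h2, mul_comm]
  have hstab : ∀ t : T, ∀ w ∈ LinearMap.range (φ s₀), φ t w ∈ LinearMap.range (φ s₀) := by
    rintro t w ⟨u, rfl⟩
    exact ⟨φ t u, hcomm s₀ t u⟩
  refine ⟨LinearMap.range (φ s₀), ?_, hstab, ?_⟩
  · intro h
    have h0 : φ s₀ = 0 := LinearMap.range_eq_bot.mp h
    exact hs₀ (hker ((RingHom.mem_ker).mpr h0))
  · intro s hs w hw hsw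
    have hle : LinearMap.range (φ (s * s₀)) ≤ LinearMap.range (φ s₀) := by
      rintro _ ⟨u, rfl⟩
      refine ⟨φ s u, ?_⟩
      have h1 : φ (s * s₀) u = φ s (φ s₀ u) := by rw [map_mul]; rfl
      rw [h1, hcomm s s₀ u]
    have hmem : LinearMap.range (φ (s * s₀)) ∈ P :=
      ⟨s * s₀, fun h => (hm.mem_or_mem h).elim hs hs₀, rfl⟩
    have heq : LinearMap.range (φ (s * s₀)) = LinearMap.range (φ s₀) := by
      by_contra hne
      exact hmin _ hmem (lt_of_le_of_ne hle hne)
    -- the restriction of `φ s` to `W` is surjective, hence injective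
    let g : LinearMap.range (φ s₀) →ₗ[ℂ] LinearMap.range (φ s₀) := (φ s).restrict (hstab s)
    have hsurj : Function.Surjective g := by
      rintro ⟨y, hy⟩
      rw [← heq] at hy
      obtain ⟨u, rfl⟩ := hy
      refine ⟨⟨φ s₀ u, u, rfl⟩, ?_⟩
      apply Subtype.ext
      have h1 : φ (s * s₀) u = φ s (φ s₀ u) := by rw [map_mul]; rfl
      simp only [g, LinearMap.coe_restrict_apply, h1]
    have hinj : Function.Injective g := LinearMap.injective_iff_surjective.mpr hsurj
    have h0 : g ⟨w, hw⟩ = 0 := by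
      apply Subtype.ext
      simpa [g, LinearMap.coe_restrict_apply] using hsw
    have := hinj (h0.trans (map_zero g).symm)
    simpa using congrArg Subtype.val this

/-- A commuting family stabilising a nonzero subspace has a common eigenvector in it. -/
theorem exists_common_eigenvector (φ : T →+* Module.End ℂ V) (W : Submodule ℂ V) (hW : W ≠ ⊥)
    (hst : ∀ t : T, ∀ w ∈ W, φ t w ∈ W) :
    ∃ v ∈ W, v ≠ 0 ∧ ∀ t : T, ∃ c : ℂ, φ t v = c • v := by
  classical
  let P : Set (Submodule ℂ V) := {U | U ≠ ⊥ ∧ U ≤ W ∧ ∀ t : T, ∀ w ∈ U, φ t w ∈ U}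
  obtain ⟨U, ⟨hU0, hUW, hUst⟩, hmin⟩ :=
    WellFounded.has_min (wellFounded_lt (α := Submodule ℂ V)) P ⟨W, hW, le_rfl, hst⟩
  have hcomm : ∀ a b : T, ∀ u : V, φ a (φ b u) = φ b (φ a u) := by
    intro a b u
    have h1 : φ (a * b) u = φ a (φ b u) := by rw [map_mul]; rfl
    have h2 : φ (b * a) u = φ b (φ a u) := by rw [map_mul]; rfl
    rw [← h1, ← h2, mul_comm]
  obtain ⟨v, hvU, hv0⟩ := (Submodule.ne_bot_iff U).mp hU0
  refine ⟨v, hUW hvU, hv0, fun t => ?_⟩
  have : Nontrivial U := (Submodule.nontrivial_iff_ne_bot).mpr hU0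
  obtain ⟨c, hc⟩ := Module.End.exists_eigenvalue ((φ t).restrict (hUst t))
  obtain ⟨w, hw⟩ := hc.exists_hasEigenvector
  let E : Submodule ℂ V := U ⊓ Module.End.eigenspace (φ t) c
  have hE_le : E ≤ U := inf_le_left
  have hE_mem : E ∈ P := by
    refine ⟨?_, hE_le.trans hUW, ?_⟩
    · intro hbot
      have hwE : (w : V) ∈ E := by
        refine Submodule.mem_inf.mpr ⟨w.2, ?_⟩
        rw [Module.End.mem_eigenspace_iff]
        have := hw.apply_eq_smul
        have h2 := congrArg Subtype.val this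
        simpa [LinearMap.coe_restrict_apply] using h2
      rw [hbot, Submodule.mem_bot] at hwE
      exact hw.2 (Subtype.ext hwE)
    · intro t' x hx
      obtain ⟨hx1, hx2'⟩ := Submodule.mem_inf.mp hx
      refine Submodule.mem_inf.mpr ⟨hUst t' x hx1, ?_⟩
      rw [Module.End.mem_eigenspace_iff]
      have hx2 : φ t x = c • x := Module.End.mem_eigenspace_iff.mp hx2'
      rw [hcomm t t' x, hx2, map_smul]
  have hEU : E = U := by
    by_contra hne
    exact hmin E hE_mem (lt_of_le_of_ne hE_le hne)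
  have hvE : v ∈ E := hEU ▸ hvU
  exact ⟨c, Module.End.mem_eigenspace_iff.mp (Submodule.mem_inf.mp hvE).2⟩

omit [FiniteDimensional ℂ V] in
/-- Eigen-data at a fixed nonzero vector assemble to a ring homomorphism. -/
theorem exists_ringHom_of_forall_eigen (φ : T →+* Module.End ℂ V) {v : V} (hv : v ≠ 0)
    (h : ∀ t : T, ∃ c : ℂ, φ t v = c • v) :
    ∃ θ : T →+* ℂ, ∀ t, φ t v = θ t • v := by
  classical
  choose θ hθ using h
  have inj : Function.Injective (fun c : ℂ => c • v) := smul_left_injective ℂ hv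
  refine ⟨{ toFun := θ, map_one' := ?_, map_mul' := ?_, map_zero' := ?_, map_add' := ?_ }, hθ⟩
  · apply inj
    show θ 1 • v = (1 : ℂ) • v
    rw [← hθ 1, map_one, one_smul]; rfl
  · intro a b
    apply inj
    show θ (a * b) • v = (θ a * θ b) • v
    have h1 : φ (a * b) v = φ a (φ b v) := by rw [map_mul]; rfl
    rw [← hθ (a * b), h1, hθ b, map_smul, hθ a, smul_smul, mul_comm]
  · apply inj
    show θ 0 • v = (0 : ℂ) • v
    rw [← hθ 0, map_zero, zero_smul]; rfl
  · intro a b
    apply inj
    show θ (a + b) • v = (θ a + θ b) • v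
    rw [← hθ (a + b), map_add, LinearMap.add_apply, hθ a, hθ b, add_smul]

omit [FiniteDimensional ℂ V] in
/-- An eigenvalue of an endomorphism preserving a finitely generated `ℤ`-submodule that
spans the space is an algebraic integer. -/
theorem isIntegral_eigenvalue (f : Module.End ℂ V) (L : Submodule ℤ V) (hLfg : L.FG)
    (hLspan : Submodule.span ℂ (L : Set V) = ⊤) (hLf : ∀ x ∈ L, f x ∈ L)
    {v : V} (hv : v ≠ 0) {c : ℂ} (hc : f v = c • v) : IsIntegral ℤ c := by
  classical
  let fL : Module.End ℤ L := (f.restrictScalars ℤ).restrict hLf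
  have hfin : Module.Finite ℤ L := Module.Finite.iff_fg.mpr hLfg
  obtain ⟨p, hpm, hp⟩ := Algebra.IsIntegral.isIntegral (R := ℤ) fL
  refine ⟨p, hpm, ?_⟩
  have hpow : ∀ (n : ℕ) (x : L), (f ^ n) (x : V) = ((fL ^ n) x : V) := by
    intro n
    induction n with
    | zero => intro x; simp
    | succ k ih =>
      intro x
      rw [pow_succ, pow_succ, Module.End.mul_apply, Module.End.mul_apply]
      have h1 : f (x : V) = ((fL x : L) : V) := rfl
      rw [h1, ih]
  have key : ∀ (q : ℤ[X]) (x : L), (aeval f q) (x : V) = ((aeval fL q) x : V) := by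
    intro q
    induction q using Polynomial.induction_on' with
    | add q1 q2 h1 h2 =>
      intro x
      simp only [map_add, LinearMap.add_apply, h1, h2, Submodule.coe_add]
    | monomial n a =>
      intro x
      simp only [aeval_monomial, eq_intCast, Module.End.mul_apply, Module.End.intCast_apply,
        hpow, Submodule.coe_smul]
  have hp' : aeval fL p = 0 := hp
  have hkerL : Submodule.span ℂ (L : Set V) ≤ LinearMap.ker (aeval f p) := by
    refine Submodule.span_le.mpr fun x hx => ?_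
    have := key p ⟨x, hx⟩
    simp only [hp', LinearMap.zero_apply, Submodule.coe_zero] at this
    exact LinearMap.mem_ker.mpr this
  rw [hLspan] at hkerL
  have hfv : aeval f p v = 0 := LinearMap.mem_ker.mp (hkerL Submodule.mem_top)
  have hev : Module.End.HasEigenvector f c v :=
    ⟨Module.End.mem_eigenspace_iff.mpr hc, hv⟩
  have h2 := Module.End.aeval_apply_of_hasEigenvector (p := p.map (algebraMap ℤ ℂ)) hev
  rw [aeval_map_algebraMap, hfv, eval_map] at h2
  exact (smul_eq_zero.mp h2.symm).resolve_right hv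

/-- **Algebra core of the lifting lemma.** A commutative ring `T` acting on a finite-dimensional
complex vector space `V` and preserving a finitely generated `ℤ`-submodule spanning `V`:
for every maximal ideal `m` of `T` containing the kernel of the action there are a simultaneous
eigenvector, whose eigencharacter `θ` takes values in the ring of algebraic integers, and a
maximal ideal `m'` of the algebraic integers with `θ⁻¹(m') = m`. -/
theorem exists_eigenvector_maximal
    (φ : T →+* Module.End ℂ V)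
    (L : Submodule ℤ V) (hLfg : L.FG) (hLspan : Submodule.span ℂ (L : Set V) = ⊤)
    (hLT : ∀ t : T, ∀ x ∈ L, φ t x ∈ L)
    (m : Ideal T) [hm : m.IsMaximal] (hker : RingHom.ker φ ≤ m) :
    ∃ (v : V) (θ : T →+* integralClosure ℤ ℂ) (m' : Ideal (integralClosure ℤ ℂ)),
      v ≠ 0 ∧ (∀ t : T, φ t v = ((θ t : integralClosure ℤ ℂ) : ℂ) • v) ∧
      m'.IsMaximal ∧ m'.comap θ = m := by
  classical
  obtain ⟨W, hW0, hWst, hWinj⟩ := exists_stable_injOn φ m hker
  obtain ⟨v, hvW, hv0, hv⟩ := exists_common_eigenvector φ W hW0 hWst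
  obtain ⟨θ₀, hθ₀⟩ := exists_ringHom_of_forall_eigen φ hv0 hv
  have hint : ∀ t, θ₀ t ∈ integralClosure ℤ ℂ := fun t =>
    isIntegral_eigenvalue (φ t) L hLfg hLspan (hLT t) hv0 (hθ₀ t)
  let θ : T →+* integralClosure ℤ ℂ := θ₀.codRestrict (integralClosure ℤ ℂ) hint
  have hθ : ∀ t, ((θ t : integralClosure ℤ ℂ) : ℂ) = θ₀ t := fun t => rfl
  have hkerθ : RingHom.ker θ ≤ m := by
    intro s hs
    by_contra hsm
    have h0 : θ₀ s = 0 := by
      have := congrArg Subtype.val (RingHom.mem_ker.mp hs)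
      simpa [hθ] using this
    have h1 : φ s v = 0 := by rw [hθ₀ s, h0, zero_smul]
    exact hv0 (hWinj s hsm v hvW h1)
  let _ : Algebra T (integralClosure ℤ ℂ) := θ.toAlgebra
  have hI : Algebra.IsIntegral T (integralClosure ℤ ℂ) :=
    ⟨fun x => (Algebra.IsIntegral.isIntegral (R := ℤ) x).tower_top⟩
  obtain ⟨Q, hQmax, hQ⟩ :=
    Ideal.exists_ideal_over_maximal_of_isIntegral (S := integralClosure ℤ ℂ) m hkerθ
  exact ⟨v, θ, Q, hv0, fun t => hθ₀ t, hQmax, hQ⟩

end

end Fermat.Agent.S49.AlgCore
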