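import Mathlib
import Fermat.Prelude.Def_FormalHecke_Eigensystem

set_option autoImplicit false

namespace Fermat.Agent.S49

variable {R : Type*} [CommRing R]

/-- The prime-power recursion from the eigen-relations. -/
theorem eigensystem_prime_pow {e a : ℕ → R} (h : FormalHecke.IsEigensystem e a)
    (ℓ r : ℕ) (hℓ : ℓ.Prime) :
    a (ℓ ^ (r + 2)) = a ℓ * a (ℓ ^ (r + 1)) - e ℓ * a (ℓ ^ r) := by
  have h2 := h.2 ℓ hℓ (ℓ ^ (r + 1))
  have hdvd : ℓ ∣ ℓ ^ (r + 1) := dvd_pow_self ℓ (Nat.succ_ne_zero r)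
  rw [if_pos hdvd] at h2
  have hdiv : ℓ ^ (r + 1) / ℓ = ℓ ^ r := by
    rw [pow_succ, Nat.mul_div_cancel _ hℓ.pos]
  rw [hdiv] at h2
  have hpow : ℓ ^ (r + 2) = ℓ * ℓ ^ (r + 1) := by ring
  rw [hpow, ← h2]
  ring

/-- Multiplicativity for a prime power times something prime to it. -/
theorem eigensystem_prime_pow_mul {e a : ℕ → R} (h : FormalHecke.IsEigensystem e a)
    (ℓ : ℕ) (hℓ : ℓ.Prime) (n : ℕ) (hn : ¬ ℓ ∣ n) :
    ∀ r : ℕ, a (ℓ ^ r * n) = a (ℓ ^ r) * a n := by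
  intro r
  induction r using Nat.twoStepInduction with
  | zero => simp [h.1]
  | one =>
    have h2 := h.2 ℓ hℓ n
    rw [if_neg hn, mul_zero, add_zero] at h2
    simpa using h2
  | more r ih0 ih1 =>
    have h2 := h.2 ℓ hℓ (ℓ ^ (r + 1) * n)
    have hdvd : ℓ ∣ ℓ ^ (r + 1) * n := Dvd.dvd.mul_right (dvd_pow_self ℓ (Nat.succ_ne_zero r)) n
    rw [if_pos hdvd] at h2
    have hdiv : ℓ ^ (r + 1) * n / ℓ = ℓ ^ r * n := by
      rw [pow_succ, mul_assoc, mul_comm ℓ n, ← mul_assoc, Nat.mul_div_cancel _ hℓ.pos]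
    rw [hdiv] at h2
    have hpow : ℓ ^ (r + 2) * n = ℓ * (ℓ ^ (r + 1) * n) := by ring
    have h3 := eigensystem_prime_pow h ℓ r hℓ
    rw [hpow, h3]
    have h4 : a (ℓ * (ℓ ^ (r + 1) * n)) = a ℓ * a (ℓ ^ (r + 1) * n) - e ℓ * a (ℓ ^ r * n) := by
      rw [← h2]; ring
    rw [h4, ih0, ih1]
    ring

/-- A formal Hecke eigensystem is recursive (multiplicative with the prime-power recursion). -/
theorem isRecursive_of_isEigensystem {e a : ℕ → R} (h : FormalHecke.IsEigensystem e a) :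
    FormalHecke.IsRecursive e a := by
  refine ⟨h.1, ?_, fun ℓ r hℓ => eigensystem_prime_pow h ℓ r hℓ⟩
  intro m
  induction m using Nat.recOnPrimeCoprime with
  | zero =>
    intro n hn
    rw [Nat.coprime_zero_left] at hn
    subst hn
    simp [h.1]
  | prime_pow p k hp =>
    intro n hn
    rcases Nat.eq_zero_or_pos k with rfl | hk
    · simp [h.1]
    · have hpn : ¬ p ∣ n :=
        (Nat.Prime.coprime_iff_not_dvd hp).mp
          (Nat.Coprime.coprime_dvd_left (dvd_pow_self p hk.ne') hn)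
      exact eigensystem_prime_pow_mul h p hp n hpn k
  | coprime x y hx hy hxy ihx ihy =>
    intro n hn
    have hxn : Nat.Coprime x n := Nat.Coprime.coprime_mul_right hn
    have hyn : Nat.Coprime y n := Nat.Coprime.coprime_mul_left hn
    rw [mul_assoc, ihx (y * n) (Nat.Coprime.mul_right hxy hxn), ihy n hyn, ihx y hxy]
    ring

end Fermat.Agent.S49
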