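import Mathlib
import Fermat.Agent.S49.Forms
import Fermat.Prelude.Def_FormalHecke_Eigensystem

set_option autoImplicit false

open CongruenceSubgroup ModularFormClass UpperHalfPlane EisensteinWeightOne

namespace Fermat.Agent.S49

variable {N : ℕ}

theorem bridgeProduct_coeff_sub (a : ℕ → ℤ) (n : ℕ) :
    (3 : ℤ) ∣ (bridgeProduct a).coeff n - a n := by
  have h1 : PowerSeries.map (Int.castRingHom (ZMod 3)) (e1Chi3In ℤ) = 1 := by
    ext j
    unfold e1Chi3In e1Chi3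
    simp only [PowerSeries.coeff_map, PowerSeries.coeff_mk, PowerSeries.coeff_one]
    split_ifs with hj
    · simp
    · have h6 : (6 : ZMod 3) = 0 := by decide
      simp [h6]
  have h2 : (Int.castRingHom (ZMod 3)) ((bridgeProduct a).coeff n) =
      (Int.castRingHom (ZMod 3)) (a n) := by
    rw [← PowerSeries.coeff_map, bridgeProduct, map_mul, h1, mul_one, PowerSeries.coeff_map,
      PowerSeries.coeff_mk]
  have h3 : ((((bridgeProduct a).coeff n - a n : ℤ)) : ZMod 3) = 0 := by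
    push_cast
    rw [sub_eq_zero]
    exact h2
  exact (ZMod.intCast_zmod_eq_zero_iff_dvd _ 3).mp h3

theorem three_dvd_sub_chiNegThree (ℓ : ℕ) : (3 : ℤ) ∣ (ℓ : ℤ) - chiNegThree ℓ := by
  unfold chiNegThree
  split_ifs <;> omega

section

variable [NeZero N] {F : CuspForm (Gamma0 N) 2} {af a : ℕ → ℤ}

omit [NeZero N] in
theorem div3_heckeT_sub (haf : ∀ n, (af n : ℂ) = qCoeff (⇑F) n)
    (hcong : ∀ n, (3 : ℤ) ∣ af n - a n)
    (heig : FormalHecke.IsEigensystem
      (fun ℓ => if ℓ ∣ N then 0 else ((chiNegThree ℓ : ℤ) : ℤ)) a)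
    {ℓ : ℕ} (hℓ : ℓ.Prime) (hℓN : ¬ ℓ ∣ N) :
    Div3 (CuspForm.heckeTLin 2 hℓ hℓN F - a ℓ • F) := by
  intro n
  have hq : qCoeff (⇑(CuspForm.heckeTLin 2 hℓ hℓN F - a ℓ • F)) n =
      qCoeff (⇑(CuspForm.heckeTLin 2 hℓ hℓN F)) n - (a ℓ : ℂ) * qCoeff (⇑F) n := by
    rw [← qLin_apply, map_sub, map_zsmul, qLin_apply, qLin_apply]
    simp
  rw [hq, qCoeff_heckeT]
  simp only [← haf]
  have h21 : ((2 : ℤ) - 1) = 1 := by norm_num
  rw [h21, zpow_one]
  have h2 := heig.2 ℓ hℓ n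
  simp only [if_neg hℓN] at h2
  obtain ⟨k1, hk1⟩ := hcong (n * ℓ)
  obtain ⟨k3, hk3⟩ := hcong n
  obtain ⟨k4, hk4⟩ := three_dvd_sub_chiNegThree ℓ
  rw [mul_comm ℓ n] at h2
  by_cases hdvd : ℓ ∣ n
  · obtain ⟨k2, hk2⟩ := hcong (n / ℓ)
    rw [if_pos hdvd] at h2 ⊢
    refine ⟨k1 + ℓ * k2 + k4 * a (n / ℓ) - a ℓ * k3, ?_⟩
    have key : af (n * ℓ) + (ℓ : ℤ) * af (n / ℓ) - a ℓ * af n =
        3 * (k1 + ℓ * k2 + k4 * a (n / ℓ) - a ℓ * k3) := by
      linear_combination hk1 + (ℓ : ℤ) * hk2 - a ℓ * hk3 + a (n / ℓ) * hk4 + h2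
    have key' := congrArg (Int.cast : ℤ → ℂ) key
    push_cast at key' ⊢
    linear_combination key'
  · rw [if_neg hdvd] at h2 ⊢
    refine ⟨k1 - a ℓ * k3, ?_⟩
    have key : af (n * ℓ) - a ℓ * af n = 3 * (k1 - a ℓ * k3) := by
      linear_combination hk1 - a ℓ * hk3 + h2
    have key' := congrArg (Int.cast : ℤ → ℂ) key
    push_cast at key' ⊢
    linear_combination key'

theorem div3_heckeU_sub (haf : ∀ n, (af n : ℂ) = qCoeff (⇑F) n)
    (hcong : ∀ n, (3 : ℤ) ∣ af n - a n)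
    (heig : FormalHecke.IsEigensystem
      (fun ℓ => if ℓ ∣ N then 0 else ((chiNegThree ℓ : ℤ) : ℤ)) a)
    {q : ℕ} (hq : q.Prime) (hqN : q ∣ N) :
    Div3 (CuspForm.heckeULin 2 hqN F - a q • F) := by
  intro n
  have hq' : qCoeff (⇑(CuspForm.heckeULin 2 hqN F - a q • F)) n =
      qCoeff (⇑(CuspForm.heckeULin 2 hqN F)) n - (a q : ℂ) * qCoeff (⇑F) n := by
    rw [← qLin_apply, map_sub, map_zsmul, qLin_apply, qLin_apply]
    simp
  rw [hq', qCoeff_heckeU hq]
  simp only [← haf]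
  have h2 := heig.2 q hq n
  simp only [if_pos hqN, zero_mul, add_zero] at h2
  obtain ⟨k1, hk1⟩ := hcong (n * q)
  obtain ⟨k3, hk3⟩ := hcong n
  rw [mul_comm q n] at h2
  refine ⟨k1 - a q * k3, ?_⟩
  have key : af (n * q) - a q * af n = 3 * (k1 - a q * k3) := by
    linear_combination hk1 - a q * hk3 + h2
  have key' := congrArg (Int.cast : ℤ → ℂ) key
  push_cast at key' ⊢
  linear_combination key'

theorem exists_int_div3 (haf : ∀ n, (af n : ℂ) = qCoeff (⇑F) n)
    (hcong : ∀ n, (3 : ℤ) ∣ af n - a n)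
    (heig : FormalHecke.IsEigensystem
      (fun ℓ => if ℓ ∣ N then 0 else ((chiNegThree ℓ : ℤ) : ℤ)) a)
    {t : Module.End ℂ (CuspForm (Gamma0 N) 2)} (ht : t ∈ CuspForm.heckeAlgebra N 2 ∅) :
    ∃ c : ℤ, Div3 (t F - c • F) := by
  unfold CuspForm.heckeAlgebra at ht
  induction ht using Algebra.adjoin_induction with
  | mem x hx =>
    rcases hx with ⟨ℓ, hℓ, hℓN, -, rfl⟩ | ⟨q, hqN, hq, -, rfl⟩
    · exact ⟨a ℓ, div3_heckeT_sub haf hcong heig hℓ hℓN⟩
    · exact ⟨a q, div3_heckeU_sub haf hcong heig hq hqN⟩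
  | algebraMap r =>
    refine ⟨r, ?_⟩
    have : (algebraMap ℤ (Module.End ℂ (CuspForm (Gamma0 N) 2)) r) F = r • F := by
      simp
    rw [this, sub_self]
    exact div3_zero
  | add x y hx hy ihx ihy =>
    obtain ⟨c, hc⟩ := ihx
    obtain ⟨d, hd⟩ := ihy
    refine ⟨c + d, ?_⟩
    have := hc.add hd
    have e : x F - c • F + (y F - d • F) = (x + y) F - (c + d) • F := by
      rw [LinearMap.add_apply, add_smul]; abel
    rw [e] at this
    exact this
  | mul x y hx hy ihx ihy =>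
    obtain ⟨c, hc⟩ := ihx
    obtain ⟨d, hd⟩ := ihy
    refine ⟨c * d, ?_⟩
    have h1 : Div3 (x (y F - d • F)) := hd.hecke (by norm_num) hx
    have h2 := hc.zsmul d
    have := h1.add h2
    have e : x (y F - d • F) + d • (x F - c • F) = (x * y) F - (c * d) • F := by
      rw [Module.End.mul_apply, map_sub, map_zsmul, smul_sub, smul_smul, mul_comm d c]; abel
    rw [e] at this
    exact this


theorem exists_maximal_ideal (haf : ∀ n, (af n : ℂ) = qCoeff (⇑F) n)
    (hcong : ∀ n, (3 : ℤ) ∣ af n - a n)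
    (heig : FormalHecke.IsEigensystem
      (fun ℓ => if ℓ ∣ N then 0 else ((chiNegThree ℓ : ℤ) : ℤ)) a) :
    ∃ 𝔪 : Ideal (CuspForm.heckeAlgebra N 2 ∅), 𝔪.IsMaximal ∧
      (3 : CuspForm.heckeAlgebra N 2 ∅) ∈ 𝔪 ∧
      ∀ (ℓ : ℕ) (hℓ : ℓ.Prime) (hℓN : ¬ ℓ ∣ N),
        CuspForm.heckeAlgebra.T hℓ hℓN (Set.notMem_empty ℓ) -
          ((a ℓ : ℤ) : CuspForm.heckeAlgebra N 2 ∅) ∈ 𝔪 := by
  have hFint : F ∈ CuspForm.intLattice N 2 :=
    (mem_intLattice_iff F).mpr fun n => ⟨af n, (haf n).symm⟩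
  have hFnot : ¬ Div3 F := by
    intro hF
    obtain ⟨m, hm⟩ := hF 1
    rw [← haf] at hm
    have hm' : af 1 = 3 * m := by exact_mod_cast hm
    have h1 := hcong 1
    rw [heig.1] at h1
    omega
  let 𝔪 : Ideal (CuspForm.heckeAlgebra N 2 ∅) :=
    { carrier := {t | Div3 ((t : Module.End ℂ (CuspForm (Gamma0 N) 2)) F)}
      zero_mem' := by
        show Div3 (((0 : CuspForm.heckeAlgebra N 2 ∅) : Module.End ℂ (CuspForm (Gamma0 N) 2)) F)
        rw [ZeroMemClass.coe_zero, LinearMap.zero_apply]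
        exact div3_zero
      add_mem' := fun {s t} hs ht => by
        show Div3 (((s + t : CuspForm.heckeAlgebra N 2 ∅) :
          Module.End ℂ (CuspForm (Gamma0 N) 2)) F)
        rw [AddMemClass.coe_add, LinearMap.add_apply]
        exact Div3.add hs ht
      smul_mem' := fun c t ht => by
        show Div3 (((c * t : CuspForm.heckeAlgebra N 2 ∅) :
          Module.End ℂ (CuspForm (Gamma0 N) 2)) F)
        rw [MulMemClass.coe_mul, Module.End.mul_apply]
        exact Div3.hecke (by norm_num) c.2 ht }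
  have hmem : ∀ t : CuspForm.heckeAlgebra N 2 ∅,
      t ∈ 𝔪 ↔ Div3 ((t : Module.End ℂ (CuspForm (Gamma0 N) 2)) F) := fun t => Iff.rfl
  have hsub : ∀ (t : CuspForm.heckeAlgebra N 2 ∅) (c : ℤ),
      t - ((c : ℤ) : CuspForm.heckeAlgebra N 2 ∅) ∈ 𝔪 ↔
        Div3 ((t : Module.End ℂ (CuspForm (Gamma0 N) 2)) F - c • F) := by
    intro t c
    rw [hmem, AddSubgroupClass.coe_sub, LinearMap.sub_apply, SubringClass.coe_intCast,
      Module.End.intCast_apply]
  have h3 : (3 : CuspForm.heckeAlgebra N 2 ∅) ∈ 𝔪 := by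
    rw [hmem]
    have : (((3 : CuspForm.heckeAlgebra N 2 ∅) : Module.End ℂ (CuspForm (Gamma0 N) 2)) F) =
        (3 : ℤ) • F := by
      have h := SubringClass.coe_intCast (CuspForm.heckeAlgebra N 2 ∅) 3
      rw [Int.cast_ofNat] at h
      rw [h, Module.End.intCast_apply]
    rw [this]
    exact div3_three_smul hFint
  refine ⟨𝔪, ?_, h3, ?_⟩
  · rw [Ideal.isMaximal_iff]
    refine ⟨?_, ?_⟩
    · rw [hmem]
      simpa using hFnot
    · intro J x hJ hx hxJ
      obtain ⟨c, hc⟩ := exists_int_div3 haf hcong heig x.2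
      rw [← hsub] at hc
      have hc3 : ¬ (3 : ℤ) ∣ c := by
        rintro ⟨d, rfl⟩
        apply hx
        have h4 : ((3 * d : ℤ) : CuspForm.heckeAlgebra N 2 ∅) ∈ 𝔪 := by
          push_cast
          exact 𝔪.mul_mem_right _ h3
        have := 𝔪.add_mem hc h4
        rwa [sub_add_cancel] at this
      have hcJ : ((c : ℤ) : CuspForm.heckeAlgebra N 2 ∅) ∈ J := by
        have := J.sub_mem hxJ (hJ hc)
        rwa [sub_sub_cancel] at this
      have h3J : (3 : CuspForm.heckeAlgebra N 2 ∅) ∈ J := hJ h3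
      obtain ⟨u, w, huw⟩ : ∃ u w : ℤ, u * c + w * 3 = 1 := by
        have hcop : IsCoprime c 3 := by
          rw [Int.isCoprime_iff_gcd_eq_one]
          have : Int.gcd c 3 ∣ 3 := Int.gcd_dvd_right c 3 |> Int.natCast_dvd_natCast.mp
          rcases (Nat.dvd_prime Nat.prime_three).mp this with h | h
          · exact h
          · exfalso
            apply hc3
            have := Int.gcd_dvd_left c 3
            rw [h] at this
            exact_mod_cast this
        exact hcop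
      have h1 : (1 : CuspForm.heckeAlgebra N 2 ∅) =
          ((u : ℤ) : CuspForm.heckeAlgebra N 2 ∅) * ((c : ℤ) : CuspForm.heckeAlgebra N 2 ∅) +
            ((w : ℤ) : CuspForm.heckeAlgebra N 2 ∅) * 3 := by
        have := congrArg (Int.cast : ℤ → CuspForm.heckeAlgebra N 2 ∅) huw
        push_cast at this
        exact this.symm
      rw [h1]
      exact J.add_mem (J.mul_mem_left _ hcJ) (J.mul_mem_left _ h3J)
  · intro ℓ hℓ hℓN
    rw [hsub]
    exact div3_heckeT_sub haf hcong heig hℓ hℓN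

end

end Fermat.Agent.S49
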