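import Mathlib

set_option autoImplicit false

namespace Fermat.Agent.S49

/-- Abstract version: a commutative finite `ℂ`-algebra `A` acting faithfully on a finite module
has, below any prime, an eigenvector whose eigencharacter has kernel inside that prime. -/
theorem exists_eigenvector_abstract
    {A : Type*} [CommRing A] [Algebra ℂ A] [Module.Finite ℂ A]
    {V : Type*} [AddCommGroup V] [Module A V] [Module.Finite A V]
    (hfaith : ∀ a : A, (∀ v : V, a • v = 0) → a = 0)
    (𝔫 : Ideal A) [𝔫.IsPrime] :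
    ∃ (v : V) (χ : A →+* ℂ), v ≠ 0 ∧ (∀ a : A, a • v = algebraMap ℂ A (χ a) • v) ∧
      RingHom.ker χ ≤ 𝔫 := by
  have : IsNoetherianRing A := IsNoetherianRing.of_finite ℂ A
  have hann : Module.annihilator A V = ⊥ := by
    rw [eq_bot_iff]
    intro a ha
    rw [Module.mem_annihilator] at ha
    exact hfaith a ha
  obtain ⟨p, hp, hple⟩ := Ideal.exists_minimalPrimes_le (I := Module.annihilator A V) (J := 𝔫)
    (by rw [hann]; exact bot_le)
  have hass : p ∈ associatedPrimes A V :=
    Module.associatedPrimes.minimalPrimes_annihilator_subset_associatedPrimes A V hp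
  obtain ⟨hprime, v, hv⟩ := (isAssociatedPrime_iff).mp hass
  have := hprime
  have : Module.Finite ℂ (A ⧸ p) :=
    Module.Finite.of_surjective (Ideal.Quotient.mkₐ ℂ p).toLinearMap
      (Ideal.Quotient.mkₐ_surjective ℂ p)
  have hbij : Function.Bijective (algebraMap ℂ (A ⧸ p)) :=
    IsAlgClosed.algebraMap_bijective_of_isIntegral
  let e : ℂ ≃+* A ⧸ p := RingEquiv.ofBijective (algebraMap ℂ (A ⧸ p)) hbij
  let χ : A →+* ℂ := e.symm.toRingHom.comp (Ideal.Quotient.mk p)
  have hχ : ∀ a : A, a - algebraMap ℂ A (χ a) ∈ p := by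
    intro a
    rw [← Ideal.Quotient.eq]
    have h1 : (Ideal.Quotient.mk p) (algebraMap ℂ A (χ a)) = algebraMap ℂ (A ⧸ p) (χ a) := rfl
    rw [h1]
    show _ = e (e.symm (Ideal.Quotient.mk p a))
    rw [RingEquiv.apply_symm_apply]
  have hmem : ∀ a : A, a ∈ p ↔ a • v = 0 := by
    intro a
    rw [hv, Submodule.mem_colon_singleton, Submodule.mem_bot]
  refine ⟨v, χ, ?_, ?_, ?_⟩
  · rintro rfl
    apply hprime.ne_top
    rw [Ideal.eq_top_iff_one, hmem]
    simp
  · intro a
    have := (hmem _).mp (hχ a)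
    rw [sub_smul, sub_eq_zero] at this
    exact this
  · intro a ha
    rw [RingHom.mem_ker] at ha
    have h2 := hχ a
    rw [ha, map_zero, sub_zero] at h2
    exact hple h2


open scoped IsMulCommutative in
/-- A commutative ring `R` acting `ℂ`-linearly on a finite-dimensional space `V`, and a prime
`𝔪` of `R` containing the kernel of the action: there is a simultaneous eigenvector whose
eigencharacter has kernel contained in `𝔪`. -/
theorem exists_eigenvector_of_prime
    {V : Type*} [AddCommGroup V] [Module ℂ V] [FiniteDimensional ℂ V]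
    {R : Type*} [CommRing R] (ρ : R →+* Module.End ℂ V) (𝔪 : Ideal R) [𝔪.IsPrime]
    (hker : RingHom.ker ρ ≤ 𝔪) :
    ∃ (v : V) (θ : R →+* ℂ), v ≠ 0 ∧ (∀ r : R, ρ r v = θ r • v) ∧ RingHom.ker θ ≤ 𝔪 := by
  have hcomm : ∀ a ∈ Set.range ρ, ∀ b ∈ Set.range ρ, a * b = b * a := by
    rintro _ ⟨r, rfl⟩ _ ⟨s, rfl⟩
    rw [← map_mul, ← map_mul, mul_comm]
  have hmc : IsMulCommutative (Algebra.adjoin ℂ (Set.range ρ)) :=
    Algebra.isMulCommutative_adjoin ℂ hcomm
  let A : Subalgebra ℂ (Module.End ℂ V) := Algebra.adjoin ℂ (Set.range ρ)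
  let instA : CommRing A := inferInstanceAs (CommRing (Algebra.adjoin ℂ (Set.range ρ)))
  let ρ' : R →+* A := ρ.codRestrict A (fun r => Algebra.subset_adjoin ⟨r, rfl⟩)
  have hρ' : ∀ r, ((ρ' r : A) : Module.End ℂ V) = ρ r := fun r => rfl
  have hkerρ' : Ideal.comap ρ' ⊥ ≤ 𝔪 := by
    intro r hr
    apply hker
    rw [Ideal.mem_comap, Ideal.mem_bot] at hr
    rw [RingHom.mem_ker, ← hρ', hr]
    rfl
  obtain ⟨𝔭, h𝔭, hle⟩ := Ideal.exists_minimalPrimes_le hkerρ'
  obtain ⟨𝔫, h𝔫prime, -, hcomap⟩ := Ideal.exists_comap_eq_of_mem_minimalPrimes ρ' 𝔭 h𝔭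
  have hfinA : Module.Finite ℂ A := inferInstance
  have hfinV : Module.Finite A V := Module.Finite.of_restrictScalars_finite ℂ A V
  have hfaith : ∀ a : A, (∀ v : V, a • v = 0) → a = 0 := by
    intro a ha
    apply Subtype.ext
    apply LinearMap.ext
    intro v
    exact ha v
  obtain ⟨v, χ, hv0, heig, hkerχ⟩ := exists_eigenvector_abstract hfaith 𝔫
  refine ⟨v, χ.comp ρ', hv0, ?_, ?_⟩
  · intro r
    have h1 := heig (ρ' r)
    rw [algebraMap_smul] at h1
    exact h1
  · intro r hr
    apply hle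
    rw [← hcomap, Ideal.mem_comap]
    apply hkerχ
    exact hr

end Fermat.Agent.S49
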