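import Mathlib

set_option autoImplicit false

namespace Fermat.Agent.S49

/-- A `ℂ`-linear endomorphism stabilising a finitely generated `ℤ`-lattice that spans the space
is integral over `ℤ`. -/
theorem isIntegral_of_lattice {V : Type*} [AddCommGroup V] [Module ℂ V] (L : Submodule ℤ V)
    (hfg : L.FG) (hspan : Submodule.span ℂ (L : Set V) = ⊤) (t : Module.End ℂ V)
    (ht : ∀ x ∈ L, t x ∈ L) : IsIntegral ℤ t := by
  let A' : Subalgebra ℤ (Module.End ℂ V) :=
    { carrier := { x | ∀ n ∈ L, x n ∈ L }
      mul_mem' := fun {a b} ha hb n hn => ha _ (hb _ hn)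
      one_mem' := fun n hn => hn
      add_mem' := fun {a b} ha hb n hn => L.add_mem (ha _ hn) (hb _ hn)
      zero_mem' := fun n _hn => L.zero_mem
      algebraMap_mem' := fun r n hn => by
        have : (algebraMap ℤ (Module.End ℂ V) r) n = r • n := by
          simp
        rw [this]
        exact L.smul_mem r hn }
  let f : A' →ₐ[ℤ] Module.End ℤ L :=
    AlgHom.ofLinearMap
      { toFun := fun x => ((x : Module.End ℂ V).restrictScalars ℤ).restrict x.prop
        map_add' := by intro x y; ext; rfl
        map_smul' := by intro r s; ext; rfl }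
      (by ext; rfl)
      (by intro x y; ext; rfl)
  have hinj : Function.Injective f := by
    change Function.Injective f.toLinearMap
    rw [← LinearMap.ker_eq_bot, eq_bot_iff]
    intro s hs
    apply Subtype.ext
    apply LinearMap.ext_on hspan
    intro x hx
    exact congr_arg Subtype.val (LinearMap.congr_fun hs ⟨x, hx⟩)
  change IsIntegral ℤ (A'.val ⟨t, ht⟩)
  rw [isIntegral_algHom_iff A'.val Subtype.val_injective, ← isIntegral_algHom_iff f hinj]
  have : Module.Finite ℤ L := by rwa [Module.Finite.iff_fg]
  apply Algebra.IsIntegral.isIntegral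

end Fermat.Agent.S49
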