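import Mathlib

set_option autoImplicit false

namespace Fermat.Agent.S49

open Module

section abstract

variable {K : Type*} [Field K] [IsAlgClosed K]
variable {A V : Type*} [CommRing A] [Algebra K A] [Module.Finite K A]
  [AddCommGroup V] [Module K V] [Module A V] [IsScalarTower K A V] [Module.Finite K V]
  [FaithfulSMul A V]

/-- A finite-dimensional commutative algebra `A` over an algebraically closed field acting
faithfully on a finite-dimensional space `V`: every prime of `A` is the annihilator of a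
simultaneous eigenvector, with eigencharacter `χ : A →ₐ[K] K` of kernel that prime. -/
theorem exists_eigenvector_of_prime_artinian (𝔫 : Ideal A) [h𝔫 : 𝔫.IsPrime] :
    ∃ (v : V) (χ : A →ₐ[K] K), v ≠ 0 ∧ RingHom.ker (χ : A →+* K) = 𝔫 ∧
      ∀ a : A, a • v = χ a • v := by
  classical
  have : IsArtinianRing A := IsArtinianRing.of_finite K A
  have : IsNoetherianRing A := inferInstance
  have : Module.Finite A V := Module.Finite.of_restrictScalars_finite K A V
  have hmax : 𝔫.IsMaximal := IsArtinianRing.isMaximal_of_isPrime 𝔫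
  -- `𝔫` is a minimal prime over the annihilator of `V`, which is `⊥`
  have hann : Module.annihilator A V = ⊥ := Module.annihilator_eq_bot.mpr inferInstance
  have hmin : 𝔫 ∈ (Module.annihilator A V).minimalPrimes := by
    rw [hann]
    refine ⟨⟨h𝔫, bot_le⟩, ?_⟩
    rintro q ⟨hq, -⟩ hq𝔫
    have := hq
    have : q.IsMaximal := IsArtinianRing.isMaximal_of_isPrime q
    exact (Ideal.IsMaximal.eq_of_le ‹q.IsMaximal› h𝔫.ne_top hq𝔫).ge
  have hass : IsAssociatedPrime 𝔫 V :=
    Module.associatedPrimes.minimalPrimes_annihilator_subset_associatedPrimes A V hmin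
  obtain ⟨-, v, hv⟩ := isAssociatedPrime_iff.mp hass
  have hv0 : v ≠ 0 := by
    rintro rfl
    apply h𝔫.ne_top
    rw [hv, Ideal.eq_top_iff_one, Submodule.mem_colon_singleton]
    simp
  have hkill : ∀ a ∈ 𝔫, a • v = 0 := by
    intro a ha
    rw [hv, Submodule.mem_colon_singleton, Submodule.mem_bot] at ha
    exact ha
  -- `A ⧸ 𝔫` is a finite field extension of `K`, hence equal to `K`
  let _ : Field (A ⧸ 𝔫) := Ideal.Quotient.field 𝔫
  have : Module.Finite K (A ⧸ 𝔫) := Module.Finite.of_surjective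
    (Ideal.Quotient.mkₐ K 𝔫).toLinearMap (Ideal.Quotient.mkₐ_surjective K 𝔫)
  have hbij : Function.Bijective (algebraMap K (A ⧸ 𝔫)) :=
    IsAlgClosed.algebraMap_bijective_of_isIntegral
  let e : K ≃ₐ[K] (A ⧸ 𝔫) := AlgEquiv.ofBijective (Algebra.ofId K (A ⧸ 𝔫)) hbij
  let χ : A →ₐ[K] K := (e.symm : (A ⧸ 𝔫) →ₐ[K] K).comp (Ideal.Quotient.mkₐ K 𝔫)
  have hχ : ∀ a : A, a - algebraMap K A (χ a) ∈ 𝔫 := by
    intro a
    rw [← Ideal.Quotient.eq]
    have : e (χ a) = Ideal.Quotient.mk 𝔫 a := by
      simp [χ]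
    rw [← this]
    rfl
  refine ⟨v, χ, hv0, ?_, ?_⟩
  · ext a
    rw [RingHom.mem_ker]
    constructor
    · intro ha
      have h1 := hχ a
      have : (χ : A →+* K) a = χ a := rfl
      rw [this] at ha
      rw [ha, map_zero, sub_zero] at h1
      exact h1
    · intro ha
      show χ a = 0
      simp only [χ, AlgHom.comp_apply, Ideal.Quotient.mkₐ_eq_mk]
      rw [Ideal.Quotient.eq_zero_iff_mem.mpr ha]
      simp
  · intro a
    have h1 := hkill _ (hχ a)
    rw [sub_smul, sub_eq_zero, algebraMap_smul] at h1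
    exact h1

end abstract

section concrete

variable {K : Type*} [Field K] [IsAlgClosed K]
variable {R V : Type*} [CommRing R] [AddCommGroup V] [Module K V] [FiniteDimensional K V]

open scoped IsMulCommutative in
/-- A commutative ring `R` acting faithfully on a finite-dimensional vector space over an
algebraically closed field `K`, and a prime ideal `𝔪` of `R`: there is a simultaneous eigenvector
whose eigencharacter `θ : R →+* K` has kernel contained in `𝔪`. -/
theorem exists_eigenvector_ker_le (φ : R →+* Module.End K V) (hφ : Function.Injective φ)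
    (𝔪 : Ideal R) [h𝔪 : 𝔪.IsPrime] :
    ∃ (v : V) (θ : R →+* K), v ≠ 0 ∧ (∀ r : R, φ r v = θ r • v) ∧ RingHom.ker θ ≤ 𝔪 := by
  classical
  -- the commutative `K`-subalgebra generated by the image
  have hcomm : ∀ a ∈ Set.range φ, ∀ b ∈ Set.range φ, a * b = b * a := by
    rintro _ ⟨r, rfl⟩ _ ⟨s, rfl⟩
    rw [← map_mul, ← map_mul, mul_comm]
  let A : Subalgebra K (Module.End K V) := Algebra.adjoin K (Set.range φ)
  have hA : IsMulCommutative A := Algebra.isMulCommutative_adjoin K hcomm
  let _ : CommRing A := inferInstance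
  have hfaith : FaithfulSMul A V := by
    refine ⟨fun {a b} h => Subtype.ext (LinearMap.ext fun v => ?_)⟩
    exact h v
  let ψ : R →+* A := φ.codRestrict A (fun r => Algebra.subset_adjoin ⟨r, rfl⟩)
  have hψ : Function.Injective ψ := by
    intro r s h
    apply hφ
    exact congrArg Subtype.val h
  obtain ⟨𝔭, h𝔭, h𝔭𝔪⟩ := Ideal.exists_minimalPrimes_le (bot_le : (⊥ : Ideal R) ≤ 𝔪)
  obtain ⟨𝔫, h𝔫, h𝔫𝔭⟩ := Ideal.exists_comap_eq_of_mem_minimalPrimes_of_injective hψ 𝔭 h𝔭
  obtain ⟨v, χ, hv0, hker, hev⟩ := exists_eigenvector_of_prime_artinian (K := K) (V := V) 𝔫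
  refine ⟨v, (χ : A →+* K).comp ψ, hv0, ?_, ?_⟩
  · intro r
    exact hev (ψ r)
  · intro r hr
    rw [RingHom.mem_ker, RingHom.comp_apply, ← RingHom.mem_ker, hker] at hr
    apply h𝔭𝔪
    rw [← h𝔫𝔭]
    exact hr

end concrete

end Fermat.Agent.S49
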